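import Mathlib
import Fermat.Agent.S28.DeltaBounds

/-!
# S16 lower bound, piece (A1), analytic helpers (helper97)

* `eq_const_of_exp_eq_one` : a continuous function on `ℍ` whose exponential is `1` is a constant
  `2πi k`, `k ∈ ℤ`.
* `exists_log_on_ball` : a nonvanishing holomorphic function on the unit disc with `g 0 = 1`
  has a holomorphic logarithm vanishing at `0`.
* `logEuler` : the holomorphic logarithm of the Euler product `∏ (1 - q^n)^24` on the unit disc.
-/

set_option autoImplicit false

namespace Fermat.Agent.S16.LB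

open Complex Filter Metric Set
open UpperHalfPlane hiding I
open scoped Real Topology

/-- A continuous function on a preconnected space whose exponential is identically `1` is a
constant integer multiple of `2πi`. -/
theorem exists_int_of_exp_eq_one {X : Type*} [TopologicalSpace X] [PreconnectedSpace X]
    [Nonempty X] {F : X → ℂ} (hF : Continuous F) (h1 : ∀ x, cexp (F x) = 1) :
    ∃ k : ℤ, ∀ x, F x = 2 * π * I * k := by
  have hint : ∀ x, ∃ n : ℤ, F x = n * (2 * π * I) := fun x => Complex.exp_eq_one_iff.mp (h1 x)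
  -- the real function `Im F / 2π` is integer valued and continuous
  set r : X → ℝ := fun x => (F x).im / (2 * π) with hr
  have hrc : Continuous r := (Complex.continuous_im.comp hF).div_const _
  have hpi : (2 * π : ℝ) ≠ 0 := by positivity
  have hrint : ∀ x, ∀ n : ℤ, F x = n * (2 * π * I) → r x = n := by
    intro x n hn
    simp only [hr, hn]
    have : ((n : ℂ) * (2 * π * I)).im = n * (2 * π) := by
      simp [Complex.mul_im]
    rw [this, mul_div_cancel_right₀ _ hpi]
  have hmaps : MapsTo r univ (range ((↑) : ℤ → ℝ)) := by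
    intro x _
    obtain ⟨n, hn⟩ := hint x
    exact ⟨n, (hrint x n hn).symm⟩
  have hdisc : IsDiscrete (range ((↑) : ℤ → ℝ)) :=
    Int.isClosedEmbedding_coe_real.isInducing.isDiscrete_range
  obtain ⟨x₀⟩ := ‹Nonempty X›
  obtain ⟨k, hk⟩ := hint x₀
  refine ⟨k, fun x => ?_⟩
  obtain ⟨n, hn⟩ := hint x
  have hconst : r x = r x₀ :=
    isPreconnected_univ.constant_of_mapsTo hdisc hrc.continuousOn hmaps (mem_univ _) (mem_univ _)
  rw [hrint x n hn, hrint x₀ k hk] at hconst
  have hnk : n = k := by exact_mod_cast hconst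
  rw [hn, hnk]; ring

/-- A continuous function on a preconnected space whose exponential is constant is constant. -/
theorem eq_of_exp_eq_exp {X : Type*} [TopologicalSpace X] [PreconnectedSpace X]
    {F : X → ℂ} (hF : Continuous F) (h1 : ∀ x y, cexp (F x) = cexp (F y)) (x y : X) :
    F x = F y := by
  have : Nonempty X := ⟨x⟩
  obtain ⟨k, hk⟩ := exists_int_of_exp_eq_one (F := fun z => F z - F y) (hF.sub continuous_const)
    (fun z => by rw [Complex.exp_sub, h1 z y, div_self (Complex.exp_ne_zero _)])
  have hy := hk y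
  have hx := hk x
  simp only [sub_self] at hy
  rw [← hy] at hx
  exact sub_eq_zero.mp hx

/-- A nonvanishing holomorphic function `g` on the unit disc with `g 0 = 1` has a holomorphic
logarithm `D` with `D 0 = 0`. -/
theorem exists_log_on_ball {g : ℂ → ℂ} (hg : DifferentiableOn ℂ g (ball 0 1))
    (hne : ∀ q ∈ ball (0 : ℂ) 1, g q ≠ 0) (h0 : g 0 = 1) :
    ∃ D : ℂ → ℂ, DifferentiableOn ℂ D (ball 0 1) ∧ D 0 = 0 ∧
      ∀ q ∈ ball (0 : ℂ) 1, cexp (D q) = g q := by
  have hopen : IsOpen (ball (0 : ℂ) 1) := isOpen_ball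
  have hd : DifferentiableOn ℂ (deriv g) (ball 0 1) := hg.deriv hopen
  have hquot : DifferentiableOn ℂ (fun q => deriv g q / g q) (ball 0 1) := hd.div hg hne
  obtain ⟨D₀, hD₀⟩ := hquot.isExactOn_ball
  have h0mem : (0 : ℂ) ∈ ball (0 : ℂ) 1 := mem_ball_self one_pos
  set D : ℂ → ℂ := fun q => D₀ q - D₀ 0 with hD
  have hDder : ∀ q ∈ ball (0 : ℂ) 1, HasDerivAt D (deriv g q / g q) q := fun q hq =>
    (hD₀ q hq).sub_const _
  have hDdiff : DifferentiableOn ℂ D (ball 0 1) := fun q hq =>
    (hDder q hq).differentiableAt.differentiableWithinAt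
  refine ⟨D, hDdiff, by simp [hD], ?_⟩
  -- `ψ = g * exp (-D)` has zero derivative
  set ψ : ℂ → ℂ := fun q => g q * cexp (-D q) with hψ
  have hψder : ∀ q ∈ ball (0 : ℂ) 1, HasDerivAt ψ 0 q := by
    intro q hq
    have hgq : HasDerivAt g (deriv g q) q :=
      (hg.differentiableAt (hopen.mem_nhds hq)).hasDerivAt
    have h2 : HasDerivAt (fun q => cexp (-D q)) (cexp (-D q) * -(deriv g q / g q)) q :=
      ((hDder q hq).neg).cexp
    have h3 := hgq.mul h2
    have hz : deriv g q * cexp (-D q) + g q * (cexp (-D q) * -(deriv g q / g q)) = 0 := by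
      have := hne q hq
      field_simp
      ring
    rw [hz] at h3
    exact h3
  have hψdiff : DifferentiableOn ℂ ψ (ball 0 1) := fun q hq =>
    (hψder q hq).differentiableAt.differentiableWithinAt
  have hψ' : (ball (0 : ℂ) 1).EqOn (deriv ψ) 0 := fun q hq => (hψder q hq).deriv
  intro q hq
  have hconst : ψ q = ψ 0 :=
    hopen.is_const_of_deriv_eq_zero (convex_ball 0 1).isPreconnected hψdiff hψ' hq h0mem
  have hψ0 : ψ 0 = 1 := by simp [hψ, hD, h0]
  rw [hψ0] at hconst
  have : g q * cexp (-D q) = 1 := hconst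
  rw [Complex.exp_neg] at this
  have hexp : cexp (D q) ≠ 0 := Complex.exp_ne_zero _
  field_simp at this
  exact this.symm

open Fermat.Agent.S28 in
lemma eulerProd24_zero : wp2EulerProd24 0 = 1 := by
  unfold wp2EulerProd24
  simp

open Fermat.Agent.S28 in
lemma differentiableOn_eulerProd24 : DifferentiableOn ℂ wp2EulerProd24 (ball (0 : ℂ) 1) :=
  ModularForm.differentiableOn_tprod_one_sub_pow_pow 24

open Fermat.Agent.S28 in
/-- The holomorphic logarithm of the Euler product `∏ (1 - q^n)^24` on the unit disc,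
normalised by `logEuler 0 = 0`. -/
noncomputable def logEuler : ℂ → ℂ :=
  (exists_log_on_ball differentiableOn_eulerProd24
    (fun q hq => wp2_eulerProd24_ne_zero (by simpa using hq)) eulerProd24_zero).choose

open Fermat.Agent.S28 in
lemma differentiableOn_logEuler : DifferentiableOn ℂ logEuler (ball (0 : ℂ) 1) :=
  (exists_log_on_ball differentiableOn_eulerProd24
    (fun q hq => wp2_eulerProd24_ne_zero (by simpa using hq)) eulerProd24_zero).choose_spec.1

open Fermat.Agent.S28 in
lemma logEuler_zero : logEuler 0 = 0 :=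
  (exists_log_on_ball differentiableOn_eulerProd24
    (fun q hq => wp2_eulerProd24_ne_zero (by simpa using hq)) eulerProd24_zero).choose_spec.2.1

open Fermat.Agent.S28 in
lemma exp_logEuler {q : ℂ} (hq : ‖q‖ < 1) : cexp (logEuler q) = wp2EulerProd24 q :=
  (exists_log_on_ball differentiableOn_eulerProd24
    (fun q hq => wp2_eulerProd24_ne_zero (by simpa using hq)) eulerProd24_zero).choose_spec.2.2 q
    (by simpa using hq)

end Fermat.Agent.S16.LB
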